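/-
Program G / package FC (helper22): the function field of `X₀(N)` over `ℂ`,
`gfcField N = laurentBaseChange ℂ (modularFunctionFieldFull N) ⊂ ℂ((q))`, and the `ℂ`-versions of the
S24 objects. The files of this directory are MECHANICAL PORTS of the `Qbar`-specific files of
`Fermat/Agent/S24` (`QBar ↦ ℂ`, `iotaBar ↦ gfcIota = id`, every declaration renamed `gfc_<name>`),
so that every statement of S24 about `modularFunctionFieldBar N` is available for `gfcField N`.
-/
import Mathlib
import Fermat.Agent.S24.ADefs

set_option autoImplicit false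

noncomputable section

namespace Fermat.Agent.G

open UpperHalfPlane ModularCurve ModularForm Fermat.Agent.S24
open scoped MatrixGroups Manifold ModularForm Real

/-- the embedding of the constants (`= id`; kept so that the ports are literal) -/
def gfcIota : ℂ →+* ℂ := RingHom.id ℂ

theorem gfcIota_injective : Function.Injective gfcIota := fun _ _ h => h

@[simp] theorem gfcIota_apply (c : ℂ) : gfcIota c = c := rfl

variable (N : ℕ)

/-- the function field of `X₀(N)` over `ℂ`, as a subfield of `ℂ((q))` -/
abbrev gfcField : IntermediateField ℂ (LaurentSeries ℂ) :=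
  laurentBaseChange ℂ (modularFunctionFieldFull N)

/-- `j(q^d)` as an element of `gfcField N`. -/
def gfc_jdBar (d : ℕ) [NeZero d] (hd : d ∣ N) : gfcField N :=
  ⟨coeffEmb ℂ (qExpand ℚ d jq), coeffEmb_mem_laurentBaseChange ℂ (jqd_mem_full N hd)⟩

/-- `j(q)` as an element of `gfcField N`. -/
def gfc_jBar : gfcField N :=
  ⟨coeffEmb ℂ jq, coeffEmb_mem_laurentBaseChange ℂ (by
    have h := jqd_mem_full (d := 1) N (one_dvd N)
    rwa [qExpand_one_apply] at h)⟩

@[simp] theorem gfc_coe_jdBar (d : ℕ) [NeZero d] (hd : d ∣ N) :
    ((gfc_jdBar N d hd : gfcField N) : LaurentSeries ℂ) =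
      coeffEmb ℂ (qExpand ℚ d jq) := rfl

@[simp] theorem gfc_coe_jBar : ((gfc_jBar N : gfcField N) : LaurentSeries ℂ) =
    coeffEmb ℂ jq := rfl

end Fermat.Agent.G
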