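-- MECHANICAL PORT of Fermat/Agent/S24/Bridge.lean to the field of constants ℂ (see G/FC/Defs.lean)
import Mathlib
import Fermat.Agent.S24.ADefs
import Fermat.Agent.G.FC.Defs
import Fermat.Agent.S23.UNStab
import Fermat.Agent.S24.CuspExpSpec
import Fermat.Agent.S24.JExpSpec
import Fermat.Prelude.Thm_ModularCurve_coeffMap_qExpand

/-!
# S24 (A-side) : the bridge between the formal field and functions on `ℍ`

`gfc_RBar N` : the `Qbar`-subalgebra of the Prelude field `gfcField N ⊂ Qbar((q))`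
generated by the `j(q^d)`, `d ∣ N`.  Its fraction field is the whole field.
`gfc_toHol N : gfc_RBar N →+* HolRing` : the unique ring hom such that `gfc_toHol x` has the `q`-expansion
`coeffMap gfcIota x` (so `j(q^d) ↦ (τ ↦ jFun (d τ))`, constants `c ↦ gfcIota c`).

Names, definitions and statements are exactly those of `BridgeSpec.lean` (helper11).
Black boxes: `CuspExpSpec` (algebra of `HasCuspExp`), `JExpSpec` (`hasCuspExp_jFun`).
-/

set_option autoImplicit false
set_option linter.unusedSectionVars false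

noncomputable section

namespace Fermat.Agent.G

open Fermat.Agent.S24

open UpperHalfPlane ModularCurve
open scoped MatrixGroups Manifold ModularForm Real

/-! ### Auxiliary lemmas (prefixed `bridge_`) -/

/-- `j` is invariant under `SL(2, ℤ)`. -/
theorem gfc_bridge_jFun_smul (γ : SL(2, ℤ)) (τ : ℍ) : jFun (γ • τ) = jFun τ := by
  have hγ : (γ : GL (Fin 2) ℝ) ∈ (𝒮ℒ : Subgroup (GL (Fin 2) ℝ)) := ⟨γ, rfl⟩
  have h4 : ModularForm.E₄ (γ • τ) = denom γ τ ^ (4 : ℤ) * ModularForm.E₄ τ := by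
    have := SlashInvariantForm.slash_action_eqn'' ModularForm.E₄ hγ τ
    simpa using this
  have h12 : ModularForm.discriminant (γ • τ) = denom γ τ ^ (12 : ℤ) * ModularForm.discriminant τ := by
    have := SlashInvariantForm.slash_action_eqn'' CuspForm.discriminant hγ τ
    simpa using this
  have hd : denom γ τ ≠ 0 := denom_ne_zero γ τ
  have hΔ := ModularForm.discriminant_ne_zero τ
  rw [jFun, jFun, h4, h12, mul_pow, ← zpow_natCast (denom γ τ ^ (4 : ℤ)) 3, ← zpow_mul]
  norm_num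
  rw [mul_div_mul_left _ _ (pow_ne_zero 12 hd)]

/-- The rotation by `1` is the identity. -/
theorem gfc_bridge_rotLaurent_one (S : LaurentSeries ℂ) : rotLaurent 1 S = S := by
  ext m
  rw [rotLaurent_coeff]
  simp

/-- `coeffMap` is `HahnSeries.map`. -/
theorem gfc_bridge_coeffMap_eq_map {R S : Type*} [CommRing R] [CommRing S] (f : R →+* S)
    (x : LaurentSeries R) : coeffMap f x = x.map f := rfl

/-- Base change of `j(q^d)` along `ℚ → Qbar → ℂ`. -/
theorem gfc_bridge_coeffMap_iotaBar_coeffEmb_qExpand (d : ℕ) [NeZero d] :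
    coeffMap gfcIota (coeffEmb ℂ (qExpand ℚ d jq)) = qExpand ℂ d (jqModC ℂ) := by
  rw [coeffEmb, coeffMap_coeffMap, ModularCurve.coeffMap_qExpand, ← jqModC_rat,
    gfc_bridge_coeffMap_eq_map, map_jqModC]

theorem gfc_bridge_coeffMap_iotaBar_coeffEmb_jq :
    coeffMap gfcIota (coeffEmb ℂ jq) = jqModC ℂ := by
  have h := gfc_bridge_coeffMap_iotaBar_coeffEmb_qExpand 1
  rwa [qExpand_one_apply, qExpand_one_apply] at h

/-- Base change of constants. -/
theorem gfc_bridge_coeffMap_iotaBar_algebraMap (c : ℂ) :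
    coeffMap gfcIota (algebraMap ℂ (LaurentSeries ℂ) c) = HahnSeries.C (gfcIota c) := by
  rw [algebraMap_laurentSeries_eq_single, coeffMap_single]
  rfl

theorem gfc_bridge_coeffMap_iotaBar_injective :
    Function.Injective (coeffMap gfcIota : LaurentSeries ℂ → LaurentSeries ℂ) := by
  intro x y hxy
  ext k
  apply gfcIota_injective
  have := congrArg (fun z : LaurentSeries ℂ => z.coeff k) hxy
  simpa using this

variable (N : ℕ) [NeZero N]

/-- The generators `j(q^d)`, `d ∣ N`, of the function field. -/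
def gfc_jdSet : Set (gfcField N) :=
  {x | ∃ (d : ℕ) (_ : NeZero d) (hd : d ∣ N), x = gfc_jdBar N d hd}

theorem gfc_jdBar_mem_jdSet (d : ℕ) [NeZero d] (hd : d ∣ N) : gfc_jdBar N d hd ∈ gfc_jdSet N :=
  ⟨d, inferInstance, hd, rfl⟩

/-- The `Qbar`-algebra `Qbar[j(q^d) : d ∣ N]`. -/
def gfc_RBar : Subalgebra ℂ (gfcField N) := Algebra.adjoin ℂ (gfc_jdSet N)

theorem gfc_jdBar_mem_RBar (d : ℕ) [NeZero d] (hd : d ∣ N) : gfc_jdBar N d hd ∈ gfc_RBar N :=
  Algebra.subset_adjoin (gfc_jdBar_mem_jdSet N d hd)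

theorem gfc_jBar_eq_jdBar_one : gfc_jBar N = gfc_jdBar N 1 (one_dvd N) := by
  apply Subtype.ext
  rw [gfc_coe_jBar, gfc_coe_jdBar, qExpand_one_apply]

theorem gfc_jBar_mem_RBar : gfc_jBar N ∈ gfc_RBar N := by
  rw [gfc_jBar_eq_jdBar_one]
  exact gfc_jdBar_mem_RBar N 1 (one_dvd N)

/-- Base change of rational constants. -/
theorem gfc_bridge_coeffEmb_algebraMap (c : ℚ) :
    coeffEmb ℂ (algebraMap ℚ (LaurentSeries ℚ) c)
      = algebraMap ℂ (LaurentSeries ℂ) (algebraMap ℚ ℂ c) := by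
  rw [algebraMap_laurentSeries_eq_single, algebraMap_laurentSeries_eq_single, coeffEmb,
    coeffMap_single]

/-- Every element of the rational field `ℚ(j(q^d) : d ∣ N)` lies, after base change, in the
subfield generated by the `gfc_jdBar`. -/
theorem gfc_bridge_coeffEmb_mem_adjoin {x : LaurentSeries ℚ} (hx : x ∈ modularFunctionFieldFull N) :
    ∃ y : gfcField N, y ∈ IntermediateField.adjoin ℂ (gfc_jdSet N) ∧
      (y : LaurentSeries ℂ) = coeffEmb ℂ x := by
  unfold modularFunctionFieldFull at hx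
  induction hx using IntermediateField.adjoin_induction with
  | mem x hx =>
      obtain ⟨d, hne, hd, rfl⟩ := hx
      have := hne
      exact ⟨gfc_jdBar N d hd, IntermediateField.subset_adjoin _ _ (gfc_jdBar_mem_jdSet N d hd), rfl⟩
  | algebraMap c =>
      refine ⟨algebraMap ℂ (gfcField N) (algebraMap ℚ ℂ c),
        IntermediateField.algebraMap_mem _ _, ?_⟩
      rw [gfc_bridge_coeffEmb_algebraMap]
      rfl
  | add x y _ _ hx hy =>
      obtain ⟨x', hx', ex⟩ := hx
      obtain ⟨y', hy', ey⟩ := hy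
      refine ⟨x' + y', add_mem hx' hy', ?_⟩
      rw [map_add, ← ex, ← ey]
      rfl
  | inv x _ hx =>
      obtain ⟨x', hx', ex⟩ := hx
      refine ⟨x'⁻¹, inv_mem hx', ?_⟩
      rw [map_inv₀, ← ex]
      rfl
  | mul x y _ _ hx hy =>
      obtain ⟨x', hx', ex⟩ := hx
      obtain ⟨y', hy', ey⟩ := hy
      refine ⟨x' * y', mul_mem hx' hy', ?_⟩
      rw [map_mul, ← ex, ← ey]
      rfl

/-- The Prelude field is generated over `Qbar` by the `j(q^d)`. -/
theorem gfc_adjoin_jdSet_eq_top : IntermediateField.adjoin ℂ (gfc_jdSet N) = ⊤ := by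
  rw [eq_top_iff]
  rintro ⟨z, hz⟩ -
  have key : ∀ (z : LaurentSeries ℂ) (hz : z ∈ gfcField N),
      (⟨z, hz⟩ : gfcField N) ∈ IntermediateField.adjoin ℂ (gfc_jdSet N) := by
    intro z hz
    have hz' : z ∈ IntermediateField.adjoin ℂ
        (⇑(coeffEmb ℂ) '' (modularFunctionFieldFull N : Set (LaurentSeries ℚ))) := hz
    induction hz' using IntermediateField.adjoin_induction with
    | mem z hz1 =>
        obtain ⟨x, hx, rfl⟩ := hz1
        obtain ⟨y, hy, e⟩ := gfc_bridge_coeffEmb_mem_adjoin N hx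
        have : y = ⟨coeffEmb ℂ x, hz⟩ := Subtype.ext e
        rw [← this]
        exact hy
    | algebraMap c =>
        exact IntermediateField.algebraMap_mem _ c
    | add x y hx hy hx' hy' =>
        have hx0 : x ∈ gfcField N := hx
        have hy0 : y ∈ gfcField N := hy
        have := add_mem (hx' hx0) (hy' hy0)
        exact this
    | inv x hx hx' =>
        have hx0 : x ∈ gfcField N := hx
        have := inv_mem (hx' hx0)
        exact this
    | mul x y hx hy hx' hy' =>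
        have hx0 : x ∈ gfcField N := hx
        have hy0 : y ∈ gfcField N := hy
        have := mul_mem (hx' hx0) (hy' hy0)
        exact this
  exact key z hz

/-- The Prelude field is the fraction field of `gfc_RBar N`. -/
theorem gfc_isFractionRing_RBar : IsFractionRing (gfc_RBar N) (gfcField N) := by
  refine IsFractionRing.of_field _ _ fun z => ?_
  have hz : z ∈ IntermediateField.adjoin ℂ (gfc_jdSet N) := by
    rw [gfc_adjoin_jdSet_eq_top]
    exact IntermediateField.mem_top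
  obtain ⟨x, hx, y, hy, e⟩ := IntermediateField.mem_adjoin_iff_div.mp hz
  exact ⟨⟨x, hx⟩, ⟨y, hy⟩, e⟩

/-- The function `τ ↦ j(d τ)` as a holomorphic function. -/
def gfc_jdHol (d : ℕ) [NeZero d] : HolRing :=
  HolRing.compGL (Fermat.Agent.S23.utGL d 0 1)
    (Fermat.Agent.S23.det_utGL_pos (NeZero.ne d) one_ne_zero 0) jHol

theorem gfc_jdHol_apply (d : ℕ) [NeZero d] (τ : ℍ) :
    (gfc_jdHol d : ℍ → ℂ) τ = jFun (Fermat.Agent.S23.utGL d 0 1 • τ) := rfl

/-- `j(dτ)` has the expansion `j(q^d)`. -/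
theorem gfc_hasCuspExp_jdHol (d : ℕ) [NeZero d] :
    HasCuspExp 1 (gfc_jdHol d : ℍ → ℂ) (qExpand ℂ d (jqModC ℂ)) := by
  have h := HasCuspExp.comp_affine (a := d) (d := 1) (NeZero.ne d) one_ne_zero 0
    (Fermat.Agent.S23.utGL d 0 1)
    (fun τ => Fermat.Agent.S23.coe_utGL_smul (NeZero.ne d) one_ne_zero 0 τ)
    hasCuspExp_jFun 1 (by simp)
  rw [gfc_bridge_rotLaurent_one] at h
  exact h

/-- Every element of `gfc_RBar N` is the expansion of a holomorphic function. -/
theorem gfc_bridge_exists_hol {x : gfcField N} (hx : x ∈ gfc_RBar N) :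
    ∃ f : HolRing, HasCuspExp 1 (f : ℍ → ℂ)
      (coeffMap gfcIota ((x : gfcField N) : LaurentSeries ℂ)) := by
  unfold gfc_RBar at hx
  induction hx using Algebra.adjoin_induction with
  | mem x hx =>
      obtain ⟨d, hne, hd, rfl⟩ := hx
      have := hne
      refine ⟨gfc_jdHol d, ?_⟩
      rw [gfc_coe_jdBar, gfc_bridge_coeffMap_iotaBar_coeffEmb_qExpand]
      exact gfc_hasCuspExp_jdHol d
  | algebraMap c =>
      refine ⟨HolRing.C (gfcIota c), ?_⟩
      have h1 : ((algebraMap ℂ (gfcField N) c : gfcField N) :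
          LaurentSeries ℂ) = algebraMap ℂ (LaurentSeries ℂ) c := rfl
      rw [h1, gfc_bridge_coeffMap_iotaBar_algebraMap]
      exact HasCuspExp.const (gfcIota c)
  | add x y _ _ hx hy =>
      obtain ⟨f, hf⟩ := hx
      obtain ⟨g, hg⟩ := hy
      refine ⟨f + g, ?_⟩
      have h1 : ((x + y : gfcField N) : LaurentSeries ℂ)
          = (x : LaurentSeries ℂ) + (y : LaurentSeries ℂ) := rfl
      rw [h1, map_add]
      exact hf.add hg
  | mul x y _ _ hx hy =>
      obtain ⟨f, hf⟩ := hx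
      obtain ⟨g, hg⟩ := hy
      refine ⟨f * g, ?_⟩
      have h1 : ((x * y : gfcField N) : LaurentSeries ℂ)
          = (x : LaurentSeries ℂ) * (y : LaurentSeries ℂ) := rfl
      rw [h1, map_mul]
      exact hf.mul hg

/-- Two holomorphic functions with the same expansion are equal. -/
theorem gfc_bridge_hol_ext {f g : HolRing} {S : LaurentSeries ℂ}
    (hf : HasCuspExp 1 (f : ℍ → ℂ) S) (hg : HasCuspExp 1 (g : ℍ → ℂ) S) : f = g :=
  Subtype.ext (hf.eq_of_eq hg)

/-- Existence of the bridge. -/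
theorem gfc_exists_toHol : ∃ φ : gfc_RBar N →+* HolRing, ∀ x : gfc_RBar N,
    HasCuspExp 1 (φ x : ℍ → ℂ)
      (coeffMap gfcIota (((x : gfcField N)) : LaurentSeries ℂ)) := by
  classical
  have hex : ∀ x : gfc_RBar N, ∃ f : HolRing, HasCuspExp 1 (f : ℍ → ℂ)
      (coeffMap gfcIota (((x : gfcField N)) : LaurentSeries ℂ)) :=
    fun x => gfc_bridge_exists_hol N x.2
  choose φ hφ using hex
  refine ⟨{ toFun := φ, map_one' := ?_, map_mul' := ?_, map_zero' := ?_, map_add' := ?_ }, hφ⟩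
  · refine gfc_bridge_hol_ext (hφ 1) ?_
    have h1 : coeffMap gfcIota ((((1 : gfc_RBar N) : gfcField N)) : LaurentSeries ℂ)
        = HahnSeries.C (1 : ℂ) := by
      have : ((((1 : gfc_RBar N) : gfcField N)) : LaurentSeries ℂ) = 1 := rfl
      rw [this, map_one, map_one]
    rw [h1]
    exact HasCuspExp.const (1 : ℂ)
  · intro x y
    refine gfc_bridge_hol_ext (hφ (x * y)) ?_
    have h1 : coeffMap gfcIota ((((x * y : gfc_RBar N) : gfcField N)) :
        LaurentSeries ℂ)
        = coeffMap gfcIota (((x : gfcField N)) : LaurentSeries ℂ)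
          * coeffMap gfcIota (((y : gfcField N)) : LaurentSeries ℂ) := by
      rw [← map_mul]
      rfl
    rw [h1]
    exact (hφ x).mul (hφ y)
  · refine gfc_bridge_hol_ext (hφ 0) ?_
    have h1 : coeffMap gfcIota ((((0 : gfc_RBar N) : gfcField N)) : LaurentSeries ℂ)
        = HahnSeries.C (0 : ℂ) := by
      have : ((((0 : gfc_RBar N) : gfcField N)) : LaurentSeries ℂ) = 0 := rfl
      rw [this, map_zero, map_zero]
    rw [h1]
    exact HasCuspExp.const (0 : ℂ)
  · intro x y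
    refine gfc_bridge_hol_ext (hφ (x + y)) ?_
    have h1 : coeffMap gfcIota ((((x + y : gfc_RBar N) : gfcField N)) :
        LaurentSeries ℂ)
        = coeffMap gfcIota (((x : gfcField N)) : LaurentSeries ℂ)
          + coeffMap gfcIota (((y : gfcField N)) : LaurentSeries ℂ) := by
      rw [← map_add]
      rfl
    rw [h1]
    exact (hφ x).add (hφ y)

/-- The bridge `Qbar[j(q^d)] → HolRing`. -/
def gfc_toHol : gfc_RBar N →+* HolRing := (gfc_exists_toHol N).choose

theorem gfc_hasCuspExp_toHol (x : gfc_RBar N) :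
    HasCuspExp 1 (gfc_toHol N x : ℍ → ℂ)
      (coeffMap gfcIota (((x : gfcField N)) : LaurentSeries ℂ)) :=
  (gfc_exists_toHol N).choose_spec x

theorem gfc_toHol_injective : Function.Injective (gfc_toHol N) := by
  intro x y hxy
  have hx := gfc_hasCuspExp_toHol N x
  have hy := gfc_hasCuspExp_toHol N y
  rw [hxy] at hx
  have h := hx.unique hy
  exact Subtype.ext (Subtype.ext (gfc_bridge_coeffMap_iotaBar_injective h))

theorem gfc_toHol_algebraMap (c : ℂ) :
    gfc_toHol N (algebraMap ℂ (gfc_RBar N) c) = HolRing.C (gfcIota c) := by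
  refine gfc_bridge_hol_ext (gfc_hasCuspExp_toHol N _) ?_
  have h1 : ((((algebraMap ℂ (gfc_RBar N) c : gfc_RBar N) : gfcField N)) :
      LaurentSeries ℂ) = algebraMap ℂ (LaurentSeries ℂ) c := rfl
  rw [h1, gfc_bridge_coeffMap_iotaBar_algebraMap]
  exact HasCuspExp.const (gfcIota c)

theorem gfc_toHol_jdBar (d : ℕ) [NeZero d] (hd : d ∣ N) :
    gfc_toHol N ⟨gfc_jdBar N d hd, gfc_jdBar_mem_RBar N d hd⟩ = gfc_jdHol d := by
  refine gfc_bridge_hol_ext (gfc_hasCuspExp_toHol N _) ?_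
  show HasCuspExp 1 (gfc_jdHol d : ℍ → ℂ)
    (coeffMap gfcIota ((gfc_jdBar N d hd : gfcField N) : LaurentSeries ℂ))
  rw [gfc_coe_jdBar, gfc_bridge_coeffMap_iotaBar_coeffEmb_qExpand]
  exact gfc_hasCuspExp_jdHol d

theorem gfc_toHol_jBar : gfc_toHol N ⟨gfc_jBar N, gfc_jBar_mem_RBar N⟩ = jHol := by
  refine gfc_bridge_hol_ext (gfc_hasCuspExp_toHol N _) ?_
  show HasCuspExp 1 (jHol : ℍ → ℂ)
    (coeffMap gfcIota ((gfc_jBar N : gfcField N) : LaurentSeries ℂ))
  rw [gfc_coe_jBar, gfc_bridge_coeffMap_iotaBar_coeffEmb_jq]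
  exact hasCuspExp_jFun

/-- `τ ↦ j(dτ)` is invariant under `Γ₀(d)`. -/
theorem gfc_bridge_smul_jdHol (d : ℕ) [NeZero d] (γ : SL(2, ℤ)) (c' : ℤ)
    (hc : (γ⁻¹ : SL(2, ℤ)) 1 0 = d * c') : γ • gfc_jdHol d = gfc_jdHol d := by
  apply Subtype.ext
  funext τ
  rw [HolRing.smul_apply, gfc_jdHol_apply, gfc_jdHol_apply]
  have h1 : (γ⁻¹ • τ : ℍ) = (Matrix.SpecialLinearGroup.mapGL ℝ γ⁻¹ : GL (Fin 2) ℝ) • τ := rfl
  rw [h1, ← mul_smul, Fermat.Agent.S23.utGL_mul_mapGL d (NeZero.ne d) γ⁻¹ c' hc, mul_smul]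
  exact gfc_bridge_jFun_smul (Fermat.Agent.S23.unstab_conjSL d γ⁻¹ c' hc) _

/-- Functions in the image of the bridge are invariant under `Γ₀(N)`. -/
theorem gfc_smul_toHol_of_mem_Gamma0 (γ : SL(2, ℤ)) (hγ : γ ∈ CongruenceSubgroup.Gamma0 N)
    (x : gfc_RBar N) : γ • gfc_toHol N x = gfc_toHol N x := by
  have hγ' : γ⁻¹ ∈ CongruenceSubgroup.Gamma0 N := inv_mem hγ
  have hdvd : (N : ℤ) ∣ (γ⁻¹ : SL(2, ℤ)) 1 0 :=
    (ZMod.intCast_zmod_eq_zero_iff_dvd _ N).mp (CongruenceSubgroup.Gamma0_mem.mp hγ')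
  have key : ∀ (y : gfcField N) (hy : y ∈ gfc_RBar N),
      γ • gfc_toHol N ⟨y, hy⟩ = gfc_toHol N ⟨y, hy⟩ := by
    intro y hy
    have hy' : y ∈ Algebra.adjoin ℂ (gfc_jdSet N) := hy
    induction hy' using Algebra.adjoin_induction with
    | mem y hy1 =>
        obtain ⟨d, hne, hd, rfl⟩ := hy1
        have := hne
        have e : (⟨gfc_jdBar N d hd, hy⟩ : gfc_RBar N) = ⟨gfc_jdBar N d hd, gfc_jdBar_mem_RBar N d hd⟩ := rfl
        rw [e, gfc_toHol_jdBar]
        obtain ⟨c', hc'⟩ : (d : ℤ) ∣ (γ⁻¹ : SL(2, ℤ)) 1 0 :=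
          (Int.natCast_dvd_natCast.mpr hd).trans hdvd
        exact gfc_bridge_smul_jdHol d γ c' hc'
    | algebraMap c =>
        have e : (⟨algebraMap ℂ (gfcField N) c, hy⟩ : gfc_RBar N)
            = algebraMap ℂ (gfc_RBar N) c := rfl
        rw [e, gfc_toHol_algebraMap]
        rfl
    | add a b ha hb ha' hb' =>
        have ha0 : a ∈ gfc_RBar N := ha
        have hb0 : b ∈ gfc_RBar N := hb
        have e : (⟨a + b, hy⟩ : gfc_RBar N) = ⟨a, ha0⟩ + ⟨b, hb0⟩ := rfl
        rw [e, map_add, smul_add, ha' ha0, hb' hb0]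
    | mul a b ha hb ha' hb' =>
        have ha0 : a ∈ gfc_RBar N := ha
        have hb0 : b ∈ gfc_RBar N := hb
        have e : (⟨a * b, hy⟩ : gfc_RBar N) = ⟨a, ha0⟩ * ⟨b, hb0⟩ := rfl
        rw [e, map_mul, smul_mul', ha' ha0, hb' hb0]
  exact key x.1 x.2

end Fermat.Agent.G
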