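-- MECHANICAL PORT of Fermat/Agent/S24/Conj.lean to the field of constants ℂ (see G/FC/Defs.lean)
import Mathlib
import Fermat.Agent.G.FC.Bridge
import Fermat.Agent.S24.CuspExpSpec
import Fermat.Agent.S24.JExpSpec
import Fermat.Agent.S24.JDeriv
import Fermat.Prelude.Def_ModularCurve_X0ModL

/-!
# S24 (A-side) : the conjugates `f ∘ γ` and their expansions at `i∞`

Proofs of the statements of `ConjSpec.lean` (helper11's spec), same names and statements.
-/

set_option autoImplicit false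
set_option linter.unusedSectionVars false

noncomputable section

namespace Fermat.Agent.G

open Fermat.Agent.S24

open UpperHalfPlane ModularCurve
open scoped MatrixGroups Manifold ModularForm Real

variable (N : ℕ) [NeZero N]

/-! ### Preliminaries on series with algebraic coefficients -/

/-- Roots of unity lie in the image of `gfcIota`. -/
theorem gfc_conj_mem_range_iotaBar_of_pow_eq_one {z : ℂ} {n : ℕ} (hn : n ≠ 0) (hz : z ^ n = 1) :
    z ∈ gfcIota.range := by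
  have hf : ((Polynomial.X : Polynomial ℂ) ^ n - Polynomial.C 1).Splits := IsAlgClosed.splits _
  have hf0 : ((Polynomial.X : Polynomial ℂ) ^ n - Polynomial.C 1) ≠ 0 :=
    Polynomial.X_pow_sub_C_ne_zero (Nat.pos_of_ne_zero hn) 1
  refine hf.mem_range_of_isRoot hf0 ?_
  simp [Polynomial.IsRoot, hz]

/-- `coeffMap gfcIota` is injective. -/
theorem gfc_conj_coeffMap_iotaBar_injective :
    Function.Injective (coeffMap gfcIota : LaurentSeries ℂ → LaurentSeries ℂ) := by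
  intro S T h
  ext m
  have := congrArg (fun U : LaurentSeries ℂ => U.coeff m) h
  simp only [coeffMap_coeff] at this
  exact gfcIota_injective this

/-- A Laurent series over `ℂ` all of whose coefficients are algebraic numbers comes from a
Laurent series over `ℂ`. -/
theorem gfc_conj_exists_coeffMap_eq (T : LaurentSeries ℂ) (hT : ∀ m : ℤ, T.coeff m ∈ gfcIota.range) :
    ∃ S : LaurentSeries ℂ, coeffMap gfcIota S = T := by
  choose c hc using hT
  have hsupp : Function.support c ⊆ T.support := by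
    intro m hm
    rw [Function.mem_support] at hm
    rw [HahnSeries.mem_support]
    intro h0
    apply hm
    apply gfcIota_injective
    rw [hc m, h0, map_zero]
  refine ⟨⟨c, T.isPWO_support.mono hsupp⟩, ?_⟩
  ext m
  rw [coeffMap_coeff]
  exact hc m

/-! ### Invariance of `j` and the Hermite normal form -/

/-- `jFun` is invariant under `SL(2, ℤ)`. -/
theorem gfc_smul_jHol (γ : SL(2, ℤ)) : γ • jHol = jHol := by
  apply Subtype.ext
  funext τ
  rw [HolRing.smul_apply]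
  exact jFun_smul γ⁻¹ τ

/-- Hermite normal form of `diag(d,1) γ`, with the extra information `a < d` when `d ∤ c`. -/
theorem gfc_conj_hermite_aux (d : ℕ) (hd : d ≠ 0) (γ : SL(2, ℤ)) :
    ∃ (a d' : ℕ) (b : ℤ), a ≠ 0 ∧ d' ≠ 0 ∧ a * d' = d ∧ (¬ (d : ℤ) ∣ γ 1 0 → a < d) ∧
      ∀ τ : ℍ, jFun ((Fermat.Agent.S23.utGL d 0 1 * Matrix.SpecialLinearGroup.mapGL ℝ γ) • τ) =
        jFun (Fermat.Agent.S23.utGL a b d' • τ) := by
  by_cases hdiv : (d : ℤ) ∣ γ 1 0
  · obtain ⟨c', hc'⟩ := hdiv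
    refine ⟨d, 1, 0, hd, one_ne_zero, mul_one d, fun h => absurd ⟨c', hc'⟩ h, fun τ => ?_⟩
    rw [Fermat.Agent.S23.utGL_mul_mapGL d hd γ c' hc', mul_smul]
    exact jFun_smul _ _
  · obtain ⟨a, d', b', β, ha, hd', had, hlt, hdecomp⟩ :=
      Fermat.Agent.S23.unstab_exists_hermite_decomp d hd γ hdiv
    refine ⟨a, d', b', ha, hd', had, fun _ => hlt, fun τ => ?_⟩
    rw [hdecomp, mul_smul]
    exact jFun_smul _ _

theorem gfc_conj_smul_jdHol_apply (d : ℕ) [NeZero d] (g : SL(2, ℤ)) (τ : ℍ) :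
    ((g • gfc_jdHol d : HolRing) : ℍ → ℂ) τ =
      jFun ((Fermat.Agent.S23.utGL d 0 1 * Matrix.SpecialLinearGroup.mapGL ℝ g⁻¹) • τ) := by
  rw [HolRing.smul_apply, gfc_jdHol_apply, mul_smul]
  rfl

/-- Hermite normal form: `j(d · g⁻¹τ) = j((aτ + b)/d')` with `a d' = d`. -/
theorem gfc_exists_hermite_jdHol (d : ℕ) [NeZero d] (g : SL(2, ℤ)) :
    ∃ (a d' : ℕ) (b : ℤ), a ≠ 0 ∧ d' ≠ 0 ∧ a * d' = d ∧
      ∀ τ : ℍ, ((g • gfc_jdHol d : HolRing) : ℍ → ℂ) τ = jFun (Fermat.Agent.S23.utGL a b d' • τ) := by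
  obtain ⟨a, d', b, ha, hd', had, -, h⟩ := gfc_conj_hermite_aux d (NeZero.ne d) g⁻¹
  exact ⟨a, d', b, ha, hd', had, fun τ => by rw [gfc_conj_smul_jdHol_apply, h]⟩

/-! ### Expansions of `j((aτ+b)/d')` -/

theorem gfc_conj_hasCuspExp_affine {a d' : ℕ} (ha : a ≠ 0) (hd' : d' ≠ 0) (b : ℤ) :
    ∃ ζ : ℂˣ, (ζ : ℂ) ^ d' = 1 ∧
      haveI : NeZero a := ⟨ha⟩
      HasCuspExp d' (fun τ => jFun (Fermat.Agent.S23.utGL a b d' • τ))
        (qExpand ℂ a (rotLaurent ζ (jqModC ℂ))) := by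
  refine ⟨Units.mk0 (Complex.exp (2 * π * Complex.I * b / d')) (Complex.exp_ne_zero _), ?_, ?_⟩
  · rw [Units.val_mk0, ← Complex.exp_nat_mul]
    have hd'c : (d' : ℂ) ≠ 0 := by exact_mod_cast hd'
    have : (d' : ℂ) * (2 * π * Complex.I * b / d') = b * (2 * π * Complex.I) := by
      field_simp
    rw [this, Complex.exp_int_mul_two_pi_mul_I]
  · exact HasCuspExp.comp_affine ha hd' b _
      (fun τ => Fermat.Agent.S23.coe_utGL_smul ha hd' b τ) hasCuspExp_jFun _ rfl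

theorem gfc_conj_affine_series_mem (a : ℕ) [NeZero a] {n : ℕ} (hn : n ≠ 0) (ζ : ℂˣ)
    (hζ : (ζ : ℂ) ^ n = 1) :
    ∃ S : LaurentSeries ℂ, coeffMap gfcIota S = qExpand ℂ a (rotLaurent ζ (jqModC ℂ)) := by
  obtain ⟨S₀, hS₀⟩ : ∃ S₀ : LaurentSeries ℂ, coeffMap gfcIota S₀ = rotLaurent ζ (jqModC ℂ) := by
    apply gfc_conj_exists_coeffMap_eq
    intro m
    rw [rotLaurent_coeff]
    obtain ⟨c, hc⟩ := gfc_conj_mem_range_iotaBar_of_pow_eq_one hn hζ
    refine Subring.mul_mem _ ⟨c ^ m, ?_⟩ ⟨(jqModC ℂ).coeff m, ?_⟩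
    · rw [map_zpow₀, hc]
    · rfl
  exact ⟨qExpand ℂ a S₀, by rw [coeffMap_qExpand, hS₀]⟩

/-! ### The stabiliser of `j(Nτ)` -/

/-- The stabiliser of `τ ↦ j(Nτ)` in `SL(2, ℤ)` is `Γ₀(N)`. -/
theorem gfc_mem_Gamma0_of_smul_jdHol (γ : SL(2, ℤ)) (h : γ • gfc_jdHol N = gfc_jdHol N) :
    γ ∈ CongruenceSubgroup.Gamma0 N := by
  have hN : N ≠ 0 := NeZero.ne N
  rw [CongruenceSubgroup.Gamma0_mem, ZMod.intCast_zmod_eq_zero_iff_dvd]
  by_contra hdiv
  have h' : γ⁻¹ • gfc_jdHol N = gfc_jdHol N := by rw [inv_smul_eq_iff, h]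
  obtain ⟨a, d', b, ha, hd', had, hlt, hτ⟩ := gfc_conj_hermite_aux N hN γ
  have halt : a < N := hlt hdiv
  obtain ⟨ζ, hζ, hexp⟩ := gfc_conj_hasCuspExp_affine ha hd' b
  haveI : NeZero a := ⟨ha⟩
  haveI : NeZero d' := ⟨hd'⟩
  have hfun : (fun τ => jFun (Fermat.Agent.S23.utGL a b d' • τ)) = (gfc_jdHol N : ℍ → ℂ) := by
    funext τ
    rw [← hτ]
    conv_rhs => rw [← h']
    rw [gfc_conj_smul_jdHol_apply, inv_inv]
  rw [hfun] at hexp
  have h2 : HasCuspExp (1 * d') (gfc_jdHol N : ℍ → ℂ) (qExpand ℂ d' (qExpand ℂ N (jqModC ℂ))) :=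
    (gfc_hasCuspExp_jdHol N).qExpand d'
  rw [one_mul] at h2
  have heq := hexp.unique h2
  have hd'2 : 2 ≤ d' := by
    by_contra hlt2
    have : d' = 1 := by omega
    rw [this, mul_one] at had
    omega
  have hc := congrArg (fun U : LaurentSeries ℂ => U.coeff ((a : ℤ) * (-((d' : ℤ) * d')))) heq
  beta_reduce at hc
  rw [qExpand_coeff_mul, rotLaurent_coeff, coeff_jqModC_of_lt, mul_zero] at hc
  · have hidx : (a : ℤ) * (-((d' : ℤ) * d')) = (d' : ℤ) * ((N : ℤ) * (-1)) := by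
      rw [← had]; push_cast; ring
    rw [hidx, qExpand_coeff_mul, qExpand_coeff_mul, coeff_jqModC_neg_one] at hc
    exact zero_ne_one hc
  · have : (2 : ℤ) ≤ d' := by exact_mod_cast hd'2
    nlinarith

/-! ### Expansions of the conjugates -/

/-- The conjugates of `j(dτ)`, `d ∣ N`, have expansions in `exp(2πiτ/N)` with algebraic
coefficients. -/
theorem gfc_conj_exists_exp_jdHol (g : SL(2, ℤ)) (d : ℕ) [NeZero d] (hd : d ∣ N) :
    ∃ S : LaurentSeries ℂ,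
      HasCuspExp N ((g • gfc_jdHol d : HolRing) : ℍ → ℂ) (coeffMap gfcIota S) := by
  obtain ⟨a, d', b, ha, hd', had, hτ⟩ := gfc_exists_hermite_jdHol d g
  obtain ⟨ζ, hζ, hexp⟩ := gfc_conj_hasCuspExp_affine ha hd' b
  haveI : NeZero a := ⟨ha⟩
  haveI : NeZero d' := ⟨hd'⟩
  obtain ⟨k, hk⟩ : d' ∣ N := Dvd.dvd.trans ⟨a, by rw [← had, mul_comm]⟩ hd
  have hk0 : k ≠ 0 := by
    rintro rfl
    exact NeZero.ne N (by rw [hk, mul_zero])
  haveI : NeZero k := ⟨hk0⟩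
  obtain ⟨S₀, hS₀⟩ := gfc_conj_affine_series_mem a hd' ζ hζ
  refine ⟨qExpand ℂ k S₀, ?_⟩
  have hfun : (fun τ => jFun (Fermat.Agent.S23.utGL a b d' • τ)) =
      ((g • gfc_jdHol d : HolRing) : ℍ → ℂ) := by
    funext τ
    rw [hτ]
  rw [hfun] at hexp
  have h2 := hexp.qExpand k
  rw [← hk] at h2
  rw [coeffMap_qExpand, hS₀]
  exact h2

/-- Every conjugate `g • gfc_toHol x` has an expansion in `exp(2πiτ/N)` with algebraic coefficients. -/
theorem gfc_conj_exists_exp (g : SL(2, ℤ)) (x : gfc_RBar N) :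
    ∃ S : LaurentSeries ℂ,
      HasCuspExp N ((g • gfc_toHol N x : HolRing) : ℍ → ℂ) (coeffMap gfcIota S) := by
  obtain ⟨x, hx⟩ := x
  change x ∈ Algebra.adjoin ℂ (gfc_jdSet N) at hx
  induction hx using Algebra.adjoin_induction with
  | mem y hy =>
    obtain ⟨d, hd0, hd, rfl⟩ := hy
    have h1 : gfc_toHol N ⟨gfc_jdBar N d hd, Algebra.subset_adjoin ⟨d, hd0, hd, rfl⟩⟩ = gfc_jdHol d :=
      gfc_toHol_jdBar N d hd
    rw [h1]
    exact gfc_conj_exists_exp_jdHol N g d hd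
  | algebraMap c =>
    refine ⟨HahnSeries.C c, ?_⟩
    have h1 : gfc_toHol N ⟨algebraMap ℂ (gfcField N) c,
        Subalgebra.algebraMap_mem _ c⟩ = HolRing.C (gfcIota c) := gfc_toHol_algebraMap N c
    rw [h1]
    have h2 : ((g • HolRing.C (gfcIota c) : HolRing) : ℍ → ℂ) = fun _ => gfcIota c := rfl
    rw [h2]
    have h3 : coeffMap gfcIota (HahnSeries.C c) = HahnSeries.C (gfcIota c) :=
      coeffMap_single gfcIota 0 c
    rw [h3]
    exact HasCuspExp.const _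
  | add y z hy hz ihy ihz =>
    obtain ⟨S, hS⟩ := ihy
    obtain ⟨T, hT⟩ := ihz
    refine ⟨S + T, ?_⟩
    have h1 : (⟨y + z, Subalgebra.add_mem _ hy hz⟩ : gfc_RBar N) = ⟨y, hy⟩ + ⟨z, hz⟩ := rfl
    rw [h1, map_add, smul_add, map_add]
    exact hS.add hT
  | mul y z hy hz ihy ihz =>
    obtain ⟨S, hS⟩ := ihy
    obtain ⟨T, hT⟩ := ihz
    refine ⟨S * T, ?_⟩
    have h1 : (⟨y * z, Subalgebra.mul_mem _ hy hz⟩ : gfc_RBar N) = ⟨y, hy⟩ * ⟨z, hz⟩ := rfl
    rw [h1, map_mul, smul_mul', map_mul]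
    exact hS.mul hT

/-- Expansions at `i∞` of the conjugates, as an injective ring hom into `Qbar((s))`,
`s = exp(2πiτ/N)`. -/
theorem gfc_exists_cuspHom (g : SL(2, ℤ)) : ∃ φ : gfc_RBar N →+* LaurentSeries ℂ,
    ∀ x : gfc_RBar N, HasCuspExp N ((g • gfc_toHol N x : HolRing) : ℍ → ℂ) (coeffMap gfcIota (φ x)) := by
  choose φ hφ using gfc_conj_exists_exp N g
  have huniq : ∀ (x : gfc_RBar N) (S : LaurentSeries ℂ),
      HasCuspExp N ((g • gfc_toHol N x : HolRing) : ℍ → ℂ) (coeffMap gfcIota S) → φ x = S :=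
    fun x S hS => gfc_conj_coeffMap_iotaBar_injective ((hφ x).unique hS)
  refine ⟨{ toFun := φ, map_one' := ?_, map_mul' := ?_, map_zero' := ?_, map_add' := ?_ }, hφ⟩
  · apply huniq
    rw [map_one, smul_one, map_one, ← HahnSeries.C_one]
    exact HasCuspExp.const 1
  · intro x y
    apply huniq
    rw [map_mul, smul_mul', map_mul]
    exact (hφ x).mul (hφ y)
  · apply huniq
    rw [map_zero, smul_zero, map_zero, ← HahnSeries.C_zero]
    exact HasCuspExp.const 0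
  · intro x y
    apply huniq
    rw [map_add, smul_add, map_add]
    exact (hφ x).add (hφ y)

/-- Expansion at `i∞` of `f ∘ g⁻¹`. -/
def gfc_cuspHom (g : SL(2, ℤ)) : gfc_RBar N →+* LaurentSeries ℂ := (gfc_exists_cuspHom N g).choose

theorem gfc_hasCuspExp_cuspHom (g : SL(2, ℤ)) (x : gfc_RBar N) :
    HasCuspExp N ((g • gfc_toHol N x : HolRing) : ℍ → ℂ) (coeffMap gfcIota (gfc_cuspHom N g x)) :=
  (gfc_exists_cuspHom N g).choose_spec x

/-- Uniqueness: any expansion of `g • gfc_toHol x` with algebraic coefficients is `gfc_cuspHom N g x`. -/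
theorem gfc_conj_cuspHom_eq (g : SL(2, ℤ)) (x : gfc_RBar N) (S : LaurentSeries ℂ)
    (hS : HasCuspExp N ((g • gfc_toHol N x : HolRing) : ℍ → ℂ) (coeffMap gfcIota S)) :
    gfc_cuspHom N g x = S :=
  gfc_conj_coeffMap_iotaBar_injective ((gfc_hasCuspExp_cuspHom N g x).unique hS)

theorem gfc_cuspHom_injective (g : SL(2, ℤ)) : Function.Injective (gfc_cuspHom N g) := by
  rw [injective_iff_map_eq_zero]
  intro x hx
  have h1 := gfc_hasCuspExp_cuspHom N g x
  rw [hx, map_zero, ← HahnSeries.C_zero] at h1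
  have h2 : ((g • gfc_toHol N x : HolRing) : ℍ → ℂ) = fun _ => (0 : ℂ) :=
    h1.eq_of_eq (HasCuspExp.const 0)
  have h3 : g • gfc_toHol N x = 0 := Subtype.ext h2
  have h4 : gfc_toHol N x = 0 := by
    have := congrArg (fun f => g⁻¹ • f) h3
    simpa using this
  exact (map_eq_zero_iff (gfc_toHol N) (gfc_toHol_injective N)).mp h4

theorem gfc_cuspHom_algebraMap (g : SL(2, ℤ)) (c : ℂ) :
    gfc_cuspHom N g (algebraMap ℂ (gfc_RBar N) c) = HahnSeries.C c := by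
  apply gfc_conj_cuspHom_eq
  rw [gfc_toHol_algebraMap]
  have h2 : ((g • HolRing.C (gfcIota c) : HolRing) : ℍ → ℂ) = fun _ => gfcIota c := rfl
  rw [h2]
  have h3 : coeffMap gfcIota (HahnSeries.C c) = HahnSeries.C (gfcIota c) :=
    coeffMap_single gfcIota 0 c
  rw [h3]
  exact HasCuspExp.const _

theorem gfc_cuspHom_jBar (g : SL(2, ℤ)) :
    gfc_cuspHom N g ⟨gfc_jBar N, gfc_jBar_mem_RBar N⟩ = qExpand ℂ N (coeffEmb ℂ jq) := by
  apply gfc_conj_cuspHom_eq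
  rw [gfc_toHol_jBar, gfc_smul_jHol, coeffMap_qExpand]
  have h1 : coeffMap gfcIota (coeffEmb ℂ jq) = jqModC ℂ := by
    rw [← jqModC_rat]
    show coeffMap gfcIota (coeffMap (algebraMap ℚ ℂ) (jqModC ℚ)) = jqModC ℂ
    rw [coeffMap_jqModC, coeffMap_jqModC]
  rw [h1]
  have h2 := hasCuspExp_jFun.qExpand N
  rw [one_mul] at h2
  exact h2

/-- `gfc_cuspHom` depends only on the left coset `g Γ₀(N)`. -/
theorem gfc_cuspHom_mul_of_mem_Gamma0 (g γ : SL(2, ℤ)) (hγ : γ ∈ CongruenceSubgroup.Gamma0 N) :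
    gfc_cuspHom N (g * γ) = gfc_cuspHom N g := by
  ext1 x
  apply gfc_conj_cuspHom_eq
  rw [mul_smul, gfc_smul_toHol_of_mem_Gamma0 N γ hγ x]
  exact gfc_hasCuspExp_cuspHom N g x

/-- Distinct cosets give distinct expansions. -/
theorem gfc_mem_Gamma0_of_cuspHom_eq (g g' : SL(2, ℤ)) (h : gfc_cuspHom N g = gfc_cuspHom N g') :
    g⁻¹ * g' ∈ CongruenceSubgroup.Gamma0 N := by
  apply gfc_mem_Gamma0_of_smul_jdHol
  have h1 := gfc_hasCuspExp_cuspHom N g ⟨gfc_jdBar N N dvd_rfl, gfc_jdBar_mem_RBar N N dvd_rfl⟩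
  have h2 := gfc_hasCuspExp_cuspHom N g' ⟨gfc_jdBar N N dvd_rfl, gfc_jdBar_mem_RBar N N dvd_rfl⟩
  rw [h, gfc_toHol_jdBar] at h1
  rw [gfc_toHol_jdBar] at h2
  have h3 : g • gfc_jdHol N = g' • gfc_jdHol N := Subtype.ext (h1.eq_of_eq h2)
  rw [mul_smul, ← h3, inv_smul_smul]

/-- Left multiplication by `T⁻¹` rotates the expansion by `exp(2πi/N)`. -/
theorem gfc_cuspHom_T_inv_mul (g : SL(2, ℤ)) (x : gfc_RBar N) (ζ : ℂˣ)
    (hζ : (ζ : ℂ) = Complex.exp (2 * π * Complex.I / N)) :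
    coeffMap gfcIota (gfc_cuspHom N (ModularGroup.T⁻¹ * g) x) =
      rotLaurent ζ (coeffMap gfcIota (gfc_cuspHom N g x)) := by
  have h1 := gfc_hasCuspExp_cuspHom N (ModularGroup.T⁻¹ * g) x
  have h2 := (gfc_hasCuspExp_cuspHom N g x).comp_T ζ hζ
  refine h1.unique ?_
  have hfun : (((ModularGroup.T⁻¹ * g) • gfc_toHol N x : HolRing) : ℍ → ℂ) =
      fun τ => ((g • gfc_toHol N x : HolRing) : ℍ → ℂ) (ModularGroup.T • τ) := by
    funext τ
    rw [mul_smul, HolRing.inv_smul_apply]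
  rw [hfun]
  exact h2

end Fermat.Agent.G
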