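-- MECHANICAL PORT of Fermat/Agent/S24/Invariant.lean to the field of constants ℂ (see G/FC/Defs.lean)
import Mathlib
import Fermat.Agent.S24.ADefs
import Fermat.Agent.G.FC.Defs
import Fermat.Agent.S24.CuspExpSpec
import Fermat.Agent.S24.JExpSpec
import Fermat.Agent.S24.JDeriv
import Fermat.Agent.S24.Invariant
import Fermat.Prelude.Def_ModularCurve_X0ModL

/-!
# S24 (A-side) : invariant functions are polynomials in `j`

A holomorphic function on `ℍ`, invariant under `SL(2, ℤ)`, with a `q`-expansion (finite pole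
order at `i∞`) whose coefficients are algebraic numbers, is a polynomial in `j` with coefficients
in `Qbar`.
-/

set_option autoImplicit false

noncomputable section

namespace Fermat.Agent.G

open Fermat.Agent.S24

open UpperHalfPlane ModularCurve
open scoped MatrixGroups Manifold ModularForm Real

/-- A holomorphic `SL(2, ℤ)`-invariant function which tends to `0` at `i∞` vanishes. -/
theorem gfc_inv_eq_zero_of_isZeroAtImInfty (f : ℍ → ℂ) (hf : MDiff f)
    (hinv : ∀ (γ : SL(2, ℤ)) (τ : ℍ), f (γ • τ) = f τ) (h0 : IsZeroAtImInfty f) : f = 0 := by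
  have hslash : ∀ γ : SL(2, ℤ), f ∣[(0 : ℤ)] γ = f := by
    intro γ
    ext τ
    rw [ModularForm.SL_slash_apply, hinv]
    simp
  have hbdd : IsBoundedAtImInfty f := h0.boundedAtFilter
  obtain ⟨c, hc⟩ := ModularFormClass.levelOne_weight_zero_const
    (levelOneOfInvariant 0 f hslash hf hbdd)
  rw [coe_levelOneOfInvariant] at hc
  have h1 : Filter.Tendsto f atImInfty (nhds c) := by
    rw [hc]; exact tendsto_const_nhds
  have h2 : c = 0 := tendsto_nhds_unique h1 h0
  rw [hc, h2]
  rfl

theorem gfc_coeffMap_iotaBar_coeffEmb_jq :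
    coeffMap gfcIota (coeffEmb ℂ jq) = jqModC ℂ := by
  rw [coeffEmb, ← jqModC_rat, coeffMap_jqModC, coeffMap_jqModC]

theorem gfc_coeffMap_iotaBar_injective : Function.Injective (coeffMap gfcIota) := by
  intro x y hxy
  ext k
  have := congrArg (fun z => z.coeff k) hxy
  simp only [coeffMap_coeff] at this
  exact gfcIota_injective this

theorem gfc_jHol_smul (γ : SL(2, ℤ)) : γ • jHol = jHol := by
  apply Subtype.ext
  funext τ
  rw [HolRing.smul_apply]
  exact jFun_smul γ⁻¹ τ

theorem gfc_coeff_coeffEmb_jq_pow_self (n : ℕ) :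
    ((coeffEmb ℂ jq) ^ n).coeff (-(n : ℤ)) = 1 := by
  rw [← map_pow, coeffEmb_coeff, coeff_jq_pow_self, map_one]

theorem gfc_coeff_coeffEmb_jq_pow_of_lt {n : ℕ} {m : ℤ} (hm : m < -(n : ℤ)) :
    ((coeffEmb ℂ jq) ^ n).coeff m = 0 := by
  rw [← map_pow, coeffEmb_coeff, coeff_jq_pow_of_lt hm, map_zero]

theorem gfc_exists_poly_of_invariant_aux (n : ℕ) : ∀ (h : HolRing)
    (_ : ∀ γ : SL(2, ℤ), γ • h = h) (S : LaurentSeries ℂ)
    (_ : HasCuspExp 1 (h : ℍ → ℂ) (coeffMap gfcIota S))
    (_ : ∀ m : ℤ, m < -(n : ℤ) → S.coeff m = 0),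
    ∃ P : Polynomial ℂ, S = Polynomial.aeval (coeffEmb ℂ jq) P := by
  induction n with
  | zero =>
    intro h hinv S hS hn
    set c : ℂ := S.coeff 0 with hc
    set S' : LaurentSeries ℂ := S - HahnSeries.C c with hS'
    have hS'coeff : ∀ m : ℤ, m ≤ 0 → S'.coeff m = 0 := by
      intro m hm
      rcases hm.lt_or_eq with hlt | rfl
      · have h1 : S.coeff m = 0 := hn m (by simpa using hlt)
        simp [hS', h1, HahnSeries.C_apply, HahnSeries.coeff_single_of_ne hlt.ne]
      · simp [hS', hc, HahnSeries.C_apply]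
    set g : ℍ → ℂ := (h : ℍ → ℂ) + -(fun _ => gfcIota c) with hg
    have hexp : HasCuspExp 1 g (coeffMap gfcIota S') := by
      have h1 := HasCuspExp.const (h := 1) (gfcIota c)
      have h2 := hS.add h1.neg
      have h3 : coeffMap gfcIota S' = coeffMap gfcIota S + -HahnSeries.C (gfcIota c) := by
        rw [hS', map_sub, sub_eq_add_neg, HahnSeries.C_apply, coeffMap_single, HahnSeries.C_apply]
      rw [h3]
      exact h2
    have hzero := hexp.isZeroAtImInfty (fun m hm => by
      rw [coeffMap_coeff, hS'coeff m hm, map_zero])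
    have hmd : MDiff g :=
      h.2.add (mdifferentiable_const).neg
    have hinv' : ∀ (γ : SL(2, ℤ)) (τ : ℍ), g (γ • τ) = g τ := by
      intro γ τ
      have := congrArg (fun g : HolRing => (g : ℍ → ℂ) τ) (hinv γ⁻¹)
      simp only [HolRing.inv_smul_apply] at this
      show (h : ℍ → ℂ) (γ • τ) + -(gfcIota c) = (h : ℍ → ℂ) τ + -(gfcIota c)
      rw [this]
    have hf0 := gfc_inv_eq_zero_of_isZeroAtImInfty _ hmd hinv' hzero
    rw [hf0] at hexp
    have h0exp : HasCuspExp 1 (0 : ℍ → ℂ) (0 : LaurentSeries ℂ) := by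
      have := HasCuspExp.const (h := 1) (0 : ℂ)
      rw [map_zero] at this
      exact this
    have hS'0 : S' = 0 := by
      apply gfc_coeffMap_iotaBar_injective
      rw [map_zero]
      exact hexp.unique h0exp
    refine ⟨Polynomial.C c, ?_⟩
    rw [Polynomial.aeval_C, algebraMap_laurentSeries_eq_single]
    have : S = HahnSeries.C c := by
      rw [hS', sub_eq_zero] at hS'0
      exact hS'0
    rw [this, HahnSeries.C_apply]
  | succ n ih =>
    intro h hinv S hS hn
    set c : ℂ := S.coeff (-((n + 1 : ℕ) : ℤ)) with hc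
    set J : LaurentSeries ℂ := coeffEmb ℂ jq with hJ
    set S' : LaurentSeries ℂ := S - HahnSeries.C c * J ^ (n + 1) with hS'
    set h' : HolRing := h - HolRing.C (gfcIota c) * jHol ^ (n + 1) with hh'
    have hinv' : ∀ γ : SL(2, ℤ), γ • h' = h' := by
      intro γ
      rw [hh', smul_sub, smul_mul', smul_pow', hinv γ, gfc_jHol_smul, HolRing.C_smul]
    have hcoeff : ∀ m : ℤ, (HahnSeries.C c * J ^ (n + 1)).coeff m = c * (J ^ (n + 1)).coeff m := by
      intro m
      rw [HahnSeries.C_mul_eq_smul, HahnSeries.coeff_smul, smul_eq_mul]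
    have hS'coeff : ∀ m : ℤ, m < -(n : ℤ) → S'.coeff m = 0 := by
      intro m hm
      have hm' : m ≤ -((n + 1 : ℕ) : ℤ) := by push_cast; omega
      rcases hm'.lt_or_eq with hlt | rfl
      · rw [hS', HahnSeries.coeff_sub, hcoeff, hn m hlt, gfc_coeff_coeffEmb_jq_pow_of_lt hlt]
        simp
      · rw [hS', HahnSeries.coeff_sub, hcoeff, gfc_coeff_coeffEmb_jq_pow_self]
        simp [hc]
    have hexp : HasCuspExp 1 (h' : ℍ → ℂ) (coeffMap gfcIota S') := by
      have h1 := HasCuspExp.const (h := 1) (gfcIota c)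
      have h2 := (hasCuspExp_jFun.pow' (n + 1))
      have h3 := hS.add (h1.mul h2).neg
      have h4 : coeffMap gfcIota S' =
          coeffMap gfcIota S + -(HahnSeries.C (gfcIota c) * jqModC ℂ ^ (n + 1)) := by
        rw [hS', map_sub, map_mul, map_pow, hJ, gfc_coeffMap_iotaBar_coeffEmb_jq, sub_eq_add_neg,
          HahnSeries.C_apply, coeffMap_single, HahnSeries.C_apply]
      rw [h4]
      exact h3
    obtain ⟨P', hP'⟩ := ih h' hinv' S' hexp hS'coeff
    refine ⟨P' + Polynomial.C c * Polynomial.X ^ (n + 1), ?_⟩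
    rw [map_add, map_mul, map_pow, Polynomial.aeval_X, Polynomial.aeval_C, ← hP',
      algebraMap_laurentSeries_eq_single, hS', ← HahnSeries.C_apply]
    ring

theorem gfc_exists_poly_of_invariant (h : HolRing) (hinv : ∀ γ : SL(2, ℤ), γ • h = h)
    (S : LaurentSeries ℂ)
    (hS : HasCuspExp 1 (h : ℍ → ℂ) (coeffMap gfcIota S)) :
    ∃ P : Polynomial ℂ, S = Polynomial.aeval (coeffEmb ℂ jq) P := by
  apply gfc_exists_poly_of_invariant_aux (-S.order).toNat h hinv S hS
  intro m hm
  apply HahnSeries.coeff_eq_zero_of_lt_order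
  have := Int.self_le_toNat (-S.order)
  omega

end Fermat.Agent.G
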