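-- MECHANICAL PORT of Fermat/Agent/S24/EmbDefs.lean to the field of constants ℂ (see G/FC/Defs.lean)
import Mathlib
import Fermat.Agent.G.FC.Bridge

/-!
# S24 (A-side) : extension of an injective ring hom `gfc_RBar N → E` to the function field

Shared by `EmbPoint.lean` and `EmbCusp.lean` (verbatim from helper11's `EmbSpec.lean`).
-/

set_option autoImplicit false
set_option linter.unusedSectionVars false

noncomputable section

namespace Fermat.Agent.G

open Fermat.Agent.S24

open UpperHalfPlane ModularCurve IntermediateField AlgebraicCurve
open scoped MatrixGroups Manifold ModularForm Real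

variable (N : ℕ) [NeZero N]

/-- Extension of an injective ring hom `gfc_RBar N → E` (`E` a field) to the fraction field. -/
def gfc_liftF {E : Type*} [Field E] (φ : gfc_RBar N →+* E) (hφ : Function.Injective φ) :
    gfcField N →+* E :=
  haveI := gfc_isFractionRing_RBar N
  IsFractionRing.lift (A := gfc_RBar N) (K := gfcField N) hφ

theorem gfc_liftF_apply {E : Type*} [Field E] (φ : gfc_RBar N →+* E) (hφ : Function.Injective φ)
    (x : gfc_RBar N) : gfc_liftF N φ hφ (x : gfcField N) = φ x := by
  have := gfc_isFractionRing_RBar N
  exact IsFractionRing.lift_algebraMap hφ x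

end Fermat.Agent.G
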