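-- MECHANICAL PORT of Fermat/Agent/S24/EmbCusp.lean to the field of constants ℂ (see G/FC/Defs.lean)
import Mathlib
import Fermat.Agent.G.FC.Degree
import Fermat.Agent.S24.EmbCountSpec
import Fermat.Agent.S24.PlacesGen
import Fermat.Agent.G.FC.EmbDefs

/-!
# S24 (A-side) : number of places of `Qbar(j(q^d), d ∣ N)` over `j = ∞`

`gfc_card_places_infty` : the number of places with `ord j < 0` is the number of `⟨T⟩`-orbits on
`SL(2,ℤ) ⧸ Γ₀(N)`.
-/

set_option autoImplicit false
set_option linter.unusedSectionVars false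

noncomputable section

namespace Fermat.Agent.G

open Fermat.Agent.S24

open UpperHalfPlane ModularCurve IntermediateField AlgebraicCurve
open scoped MatrixGroups Manifold ModularForm Real

variable (N : ℕ) [NeZero N]

theorem gfc_embcusp_coeffMap_injective {R S : Type*} [CommRing R] [CommRing S] (f : R →+* S)
    (hf : Function.Injective f) : Function.Injective (coeffMap f) := by
  intro x y h
  ext k
  have h1 := congrArg (fun z => z.coeff k) h
  simp only [coeffMap_coeff] at h1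
  exact hf h1

theorem gfc_embcusp_coeffMap_C {R S : Type*} [CommRing R] [CommRing S] (f : R →+* S) (c : R) :
    coeffMap f (HahnSeries.C c) = HahnSeries.C (f c) := by
  rw [HahnSeries.C_apply, HahnSeries.C_apply, coeffMap_single]

theorem gfc_cuspHomC_injective (g : SL(2, ℤ)) :
    Function.Injective ((coeffMap gfcIota).comp (gfc_cuspHom N g)) := by
  rw [RingHom.coe_comp]
  exact (gfc_embcusp_coeffMap_injective gfcIota gfcIota_injective).comp (gfc_cuspHom_injective N g)

/-- Expansion at `i∞` of the conjugate by `g`, on the whole function field. -/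
def gfc_cuspEmb (g : SL(2, ℤ)) : gfcField N →+* LaurentSeries ℂ :=
  gfc_liftF N ((coeffMap gfcIota).comp (gfc_cuspHom N g)) (gfc_cuspHomC_injective N g)

theorem gfc_cuspEmb_coe (g : SL(2, ℤ)) (x : gfc_RBar N) :
    gfc_cuspEmb N g (x : gfcField N) = coeffMap gfcIota (gfc_cuspHom N g x) :=
  gfc_liftF_apply N _ _ x

/-- Two ring homs on the function field which agree on `gfc_RBar N` are equal. -/
theorem gfc_embcusp_ringHom_ext {E : Type*} [Field E] {φ ψ : gfcField N →+* E}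
    (h : ∀ x : gfc_RBar N, φ (x : gfcField N) = ψ (x : gfcField N)) :
    φ = ψ := by
  have := gfc_isFractionRing_RBar N
  refine IsLocalization.ringHom_ext (nonZeroDivisors (gfc_RBar N)) ?_
  ext x
  exact h x

theorem gfc_cuspEmb_algebraMap (g : SL(2, ℤ)) (c : ℂ) :
    gfc_cuspEmb N g (algebraMap ℂ (gfcField N) c) = HahnSeries.C (gfcIota c) := by
  have h : algebraMap ℂ (gfcField N) c =
      ((algebraMap ℂ (gfc_RBar N) c : gfc_RBar N) : gfcField N) := rfl
  rw [h, gfc_cuspEmb_coe, gfc_cuspHom_algebraMap, gfc_embcusp_coeffMap_C]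

theorem gfc_cuspEmb_jBar (g : SL(2, ℤ)) :
    gfc_cuspEmb N g (gfc_jBar N) = coeffMap gfcIota (qExpand ℂ N (coeffEmb ℂ jq)) := by
  have h : gfc_jBar N = ((⟨gfc_jBar N, gfc_jBar_mem_RBar N⟩ : gfc_RBar N) : gfcField N) := rfl
  rw [h, gfc_cuspEmb_coe, gfc_cuspHom_jBar]


/-- The expansion of `j` in the parameter `exp(2πiτ/N)` has a pole of order `N`. -/
theorem gfc_embcusp_order_jBar :
    (coeffMap gfcIota (qExpand ℂ N (coeffEmb ℂ jq))).order = -(N : ℤ) := by
  set X : LaurentSeries ℂ := coeffMap gfcIota (qExpand ℂ N (coeffEmb ℂ jq)) with hX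
  have hcoeff : X.coeff (-(N : ℤ)) = 1 := by
    have h1 : -(N : ℤ) = (N : ℤ) * (-1) := by ring
    rw [hX, coeffMap_coeff, h1, qExpand_coeff_mul, coeffEmb_coeff, coeff_jq_neg_one, map_one,
      map_one]
  have hzero : ∀ m : ℤ, m < -(N : ℤ) → X.coeff m = 0 := by
    intro m hm
    rw [hX, coeffMap_coeff]
    by_cases hdvd : (N : ℤ) ∣ m
    · obtain ⟨k, rfl⟩ := hdvd
      have hNpos : (0 : ℤ) < N := by exact_mod_cast NeZero.pos N
      have hk : k < -1 := by
        by_contra hk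
        push Not at hk
        have : (N : ℤ) * (-1) ≤ (N : ℤ) * k := mul_le_mul_of_nonneg_left hk hNpos.le
        linarith
      rw [qExpand_coeff_mul, coeffEmb_coeff, coeff_jq_of_lt hk, map_zero, map_zero]
    · rw [qExpand_coeff_of_not_dvd N _ hdvd, map_zero]
  have hne : X ≠ 0 := by
    intro h0
    rw [h0] at hcoeff
    simp at hcoeff
  apply le_antisymm
  · exact HahnSeries.order_le_of_coeff_ne_zero (by rw [hcoeff]; exact one_ne_zero)
  · by_contra hlt
    push Not at hlt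
    exact hne (HahnSeries.coeff_order_eq_zero.mp (hzero _ hlt))


theorem gfc_embcusp_order_inv {x : LaurentSeries ℂ} (hx : x ≠ 0) : x⁻¹.order = -x.order := by
  have h1 : x * x⁻¹ = 1 := mul_inv_cancel₀ hx
  have h2 := HahnSeries.order_mul hx (inv_ne_zero hx)
  rw [h1, HahnSeries.order_one] at h2
  linarith

theorem gfc_cuspEmb_jBar_inv_order (g : SL(2, ℤ)) :
    (gfc_cuspEmb N g (gfc_jBar N)⁻¹).order = (N : ℤ) := by
  rw [map_inv₀, gfc_cuspEmb_jBar]
  have hne : coeffMap gfcIota (qExpand ℂ N (coeffEmb ℂ jq)) ≠ 0 := by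
    intro h0
    have h1 := gfc_embcusp_order_jBar N
    rw [h0, HahnSeries.order_zero] at h1
    have hNpos : (0 : ℤ) < N := by exact_mod_cast NeZero.pos N
    linarith
  rw [gfc_embcusp_order_inv hne, gfc_embcusp_order_jBar, neg_neg]

/-- `gfc_cuspEmb` depends only on the coset. -/
theorem gfc_cuspEmb_mul_of_mem_Gamma0 (g γ : SL(2, ℤ)) (hγ : γ ∈ CongruenceSubgroup.Gamma0 N) :
    gfc_cuspEmb N (g * γ) = gfc_cuspEmb N g := by
  refine gfc_embcusp_ringHom_ext N fun x => ?_
  rw [gfc_cuspEmb_coe, gfc_cuspEmb_coe, gfc_cuspHom_mul_of_mem_Gamma0 N g γ hγ]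

/-- Distinct cosets give distinct embeddings. -/
theorem gfc_mem_Gamma0_of_cuspEmb_eq (g g' : SL(2, ℤ)) (h : gfc_cuspEmb N g = gfc_cuspEmb N g') :
    g⁻¹ * g' ∈ CongruenceSubgroup.Gamma0 N := by
  refine gfc_mem_Gamma0_of_cuspHom_eq N g g' (RingHom.ext fun x => ?_)
  have h1 := congrArg (fun φ : gfcField N →+* LaurentSeries ℂ =>
    φ (x : gfcField N)) h
  simp only [gfc_cuspEmb_coe] at h1
  exact gfc_embcusp_coeffMap_injective gfcIota gfcIota_injective h1

/-- Left multiplication by `T⁻¹` rotates the embedding. -/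
theorem gfc_cuspEmb_T_inv_mul (g : SL(2, ℤ)) (ζ : ℂˣ)
    (hζ : (ζ : ℂ) = Complex.exp (2 * π * Complex.I / N)) (f : gfcField N) :
    rotLaurent ζ (gfc_cuspEmb N g f) = gfc_cuspEmb N (ModularGroup.T⁻¹ * g) f := by
  have h : (rotLaurent ζ).comp (gfc_cuspEmb N g) = gfc_cuspEmb N (ModularGroup.T⁻¹ * g) := by
    refine gfc_embcusp_ringHom_ext N fun x => ?_
    rw [RingHom.comp_apply, gfc_cuspEmb_coe, gfc_cuspEmb_coe, gfc_cuspHom_T_inv_mul N g x ζ hζ]
  exact congrArg (fun φ : gfcField N →+* LaurentSeries ℂ => φ f) h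

/-- The orbits of the permutation `x ↦ g⁻¹ • x` are the orbits of the cyclic group generated by
`g`. -/
theorem gfc_embcusp_orbitRel_toPerm_inv {G X : Type*} [Group G] [MulAction G X] (g : G) (a b : X) :
    MulAction.orbitRel (Subgroup.zpowers (MulAction.toPerm g⁻¹ : Equiv.Perm X)) X a b ↔
      MulAction.orbitRel (Subgroup.zpowers g) X a b := by
  have hpow : ∀ k : ℤ, (MulAction.toPerm g⁻¹ : Equiv.Perm X) ^ k = MulAction.toPerm (g ^ (-k)) := by
    intro k
    have h1 := map_zpow (MulAction.toPermHom G X) g⁻¹ k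
    rw [MulAction.toPermHom_apply, MulAction.toPermHom_apply] at h1
    rw [← h1, inv_zpow, zpow_neg]
  rw [MulAction.orbitRel_apply, MulAction.orbitRel_apply, MulAction.mem_orbit_iff,
    MulAction.mem_orbit_iff]
  constructor
  · rintro ⟨⟨_, k, rfl⟩, h⟩
    refine ⟨⟨g ^ (-k), -k, rfl⟩, ?_⟩
    rw [Subgroup.smul_def] at h ⊢
    simp only at h ⊢
    rw [hpow k] at h
    exact h
  · rintro ⟨⟨_, k, rfl⟩, h⟩
    refine ⟨⟨(MulAction.toPerm g⁻¹ : Equiv.Perm X) ^ (-k), -k, rfl⟩, ?_⟩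
    rw [Subgroup.smul_def] at h ⊢
    simp only at h ⊢
    rw [hpow (-k), neg_neg]
    exact h

/-- Number of places over `j = ∞`. -/
theorem gfc_card_places_infty :
    Nat.card {v : Place ℂ (gfcField N) // v.ord (gfc_jBar N) < 0} =
      Nat.card (MulAction.orbitRel.Quotient (Subgroup.zpowers ModularGroup.T)
        (SL(2, ℤ) ⧸ CongruenceSubgroup.Gamma0 N)) := by
  classical
  have : Finite (SL(2, ℤ) ⧸ CongruenceSubgroup.Gamma0 N) := gfc_finite_quotient_Gamma0 N
  let _ : Fintype (SL(2, ℤ) ⧸ CongruenceSubgroup.Gamma0 N) := Fintype.ofFinite _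
  have ht : IsSepGen ℂ (gfc_jBar N)⁻¹ := (gfc_isSepGen_jBar N).inv
  obtain ⟨ζ, hζ⟩ : ∃ ζ : ℂˣ, (ζ : ℂ) = Complex.exp (2 * π * Complex.I / N) :=
    ⟨Units.mk0 _ (Complex.exp_ne_zero _), rfl⟩
  have hζprim : IsPrimitiveRoot (ζ : ℂ) N := by
    rw [hζ]
    exact Complex.isPrimitiveRoot_exp N (NeZero.ne N)
  -- the family of embeddings
  have hout : ∀ (g : SL(2, ℤ)),
      gfc_cuspEmb N (QuotientGroup.mk g : SL(2, ℤ) ⧸ CongruenceSubgroup.Gamma0 N).out =
        gfc_cuspEmb N g := by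
    intro g
    obtain ⟨γ, hγ⟩ := QuotientGroup.mk_out_eq_mul (CongruenceSubgroup.Gamma0 N) g
    rw [hγ]
    exact gfc_cuspEmb_mul_of_mem_Gamma0 N g γ γ.2
  have key := card_places_eq_card_orbits_of_embeddings ht
    (ι := SL(2, ℤ) ⧸ CongruenceSubgroup.Gamma0 N) (fun q => gfc_cuspEmb N q.out)
    (by
      intro q q' h
      have h1 := gfc_mem_Gamma0_of_cuspEmb_eq N q.out q'.out h
      have h2 : (QuotientGroup.mk q.out : SL(2, ℤ) ⧸ CongruenceSubgroup.Gamma0 N) =
          QuotientGroup.mk q'.out := QuotientGroup.eq.mpr h1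
      rwa [QuotientGroup.out_eq', QuotientGroup.out_eq'] at h2)
    (by
      rw [(gfc_isSepGen_jBar N).finrank_inv, gfc_finrank_jBar, Nat.card_eq_fintype_card])
    (fun i j c => by rw [gfc_cuspEmb_algebraMap, gfc_cuspEmb_algebraMap])
    (fun i c hc => by
      rw [gfc_cuspEmb_algebraMap, HahnSeries.C_apply]
      exact HahnSeries.order_single (fun h => hc (gfcIota_injective (by rw [h, map_zero]))))
    (fun i j => by rw [map_inv₀, map_inv₀, gfc_cuspEmb_jBar, gfc_cuspEmb_jBar])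
    N (NeZero.pos N) (fun i => gfc_cuspEmb_jBar_inv_order N _)
    (ζ : ℂ) hζprim (rotLaurent ζ) (rotLaurent_coeff ζ)
    (MulAction.toPerm (ModularGroup.T⁻¹ : SL(2, ℤ)))
    (by
      intro q f
      rw [gfc_cuspEmb_T_inv_mul N _ ζ hζ]
      have h1 : (MulAction.toPerm (ModularGroup.T⁻¹ : SL(2, ℤ)) q :
          SL(2, ℤ) ⧸ CongruenceSubgroup.Gamma0 N) =
          QuotientGroup.mk (ModularGroup.T⁻¹ * q.out) := by
        conv_lhs => rw [← QuotientGroup.out_eq' q]
        rfl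
      rw [h1, hout])
  have hL : Nat.card {v : Place ℂ (gfcField N) // v.ord (gfc_jBar N) < 0} =
      Nat.card {v : Place ℂ (gfcField N) // 0 < v.ord (gfc_jBar N)⁻¹} := by
    refine Nat.card_congr (Equiv.subtypeEquivRight fun v => ?_)
    rw [Place.ord_inv]
    omega
  have hR : Nat.card (MulAction.orbitRel.Quotient
      (Subgroup.zpowers (MulAction.toPerm (ModularGroup.T⁻¹ : SL(2, ℤ)) :
        Equiv.Perm (SL(2, ℤ) ⧸ CongruenceSubgroup.Gamma0 N)))
      (SL(2, ℤ) ⧸ CongruenceSubgroup.Gamma0 N)) =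
      Nat.card (MulAction.orbitRel.Quotient (Subgroup.zpowers ModularGroup.T)
        (SL(2, ℤ) ⧸ CongruenceSubgroup.Gamma0 N)) :=
    Nat.card_congr (Quotient.congr (Equiv.refl _) fun a b =>
      gfc_embcusp_orbitRel_toPerm_inv ModularGroup.T a b)
  rw [hL, key, hR]

end Fermat.Agent.G
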